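import Fermat.Agent.S59.NMP.H43.LgcDevS33

/-!
# S59 / NMP-LGC (helper135): CORE, abstract form with a level-raising map

`JN`, `JM` two `G`-modules, `L : JN →+ JM` equivariant (the pull-back `J₀(N) → J₀(M)`; `L = id` at
good levels), `KM ≤ JM` (the kernel of the reduction map at level `M`) with

* `σ y - y ∈ KM` for `σ ∈ I`,
* MAXUNR at level `M`: `KM ⊓ JM[p] ≤ iAug I JM[p]`,
* Eichler–Shimura at level `M`: `φ² y - t_M φ y + p y ∈ KM`,
* `hback`: a point `y ∈ JN[p]` with `L y ∈ iAug I JM[p]` lies in `iAug I JN[p]`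
  (relative CE + injectivity of `L` on `JN[p]`),
* `JN` is `p`-divisible on `p`-power torsion.

Then CORE holds at level `N`:  `φ² x - t_N φ x + p x ∈ iAug I JN[pⁿ]` for `x ∈ JN[pⁿ]`
(`core_of_pull135`; dévissage = `H43.core_of_frob_s33_h43`).
-/

set_option autoImplicit false

namespace Fermat.Agent.S59.NMP.H135

open Fermat.Agent.S33 Fermat.Agent.S59.NMP.H43

variable {G JN JM : Type*} [Group G] [AddCommGroup JN] [AddCommGroup JM]
  [DistribMulAction G JN] [DistribMulAction G JM]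

/-- The augmentation of a stable subgroup is contained in it. -/
theorem iAug_le_of_stable135 (I : Subgroup G) (Y : AddSubgroup JN)
    (hY : ∀ σ ∈ I, ∀ y ∈ Y, σ • y ∈ Y) : iAug I Y ≤ Y := by
  unfold iAug
  rw [AddSubgroup.closure_le]
  rintro z ⟨σ, hσ, y, hy, rfl⟩
  exact Y.sub_mem (hY σ hσ y hy) hy

/-- The torsion subgroup is stable. -/
theorem smul_mem_torsSub135 (m : ℕ) (σ : G) {y : JN} (hy : y ∈ torsSub JN m) :
    σ • y ∈ torsSub JN m := by
  rw [mem_torsSub_iff_h43] at hy ⊢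
  rw [← smul_comm, hy, smul_zero]

/-- The augmentation of the image of `Y` under an equivariant map is the image of the
augmentation of `Y`. -/
theorem exists_preimage_of_mem_iAug_map135 (I : Subgroup G) (L : JN →+ JM)
    (hLg : ∀ (τ : G) (x : JN), L (τ • x) = τ • L x) (Y : AddSubgroup JN) {z : JM}
    (hz : z ∈ iAug I (Y.map L)) : ∃ y ∈ iAug I Y, L y = z := by
  unfold iAug at hz
  induction hz using AddSubgroup.closure_induction with
  | mem z hz =>
    obtain ⟨σ, hσ, w, ⟨w₀, hw₀, rfl⟩, rfl⟩ := hz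
    refine ⟨σ • w₀ - w₀, AddSubgroup.subset_closure ⟨σ, hσ, w₀, hw₀, rfl⟩, ?_⟩
    rw [map_sub, hLg]
  | zero => exact ⟨0, AddSubgroup.zero_mem _, map_zero _⟩
  | add a b _ _ ha hb =>
    obtain ⟨ya, hya, rfl⟩ := ha
    obtain ⟨yb, hyb, rfl⟩ := hb
    exact ⟨ya + yb, AddSubgroup.add_mem _ hya hyb, map_add _ _ _⟩
  | neg a _ ha =>
    obtain ⟨ya, hya, rfl⟩ := ha
    exact ⟨-ya, AddSubgroup.neg_mem _ hya, map_neg _ _⟩

/-- **`hback` from relative CE and injectivity on `p`-torsion.** -/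
theorem back_of_relCE135 (I : Subgroup G) (p : ℕ) (L : JN →+ JM)
    (hLg : ∀ (τ : G) (x : JN), L (τ • x) = τ • L x)
    (hinj : ∀ y : JN, p • y = 0 → L y = 0 → y = 0)
    (hCE : ∀ z ∈ (torsSub JN p).map L, z ∈ iAug I (torsSub JM p) →
      z ∈ iAug I ((torsSub JN p).map L))
    (y : JN) (hy : p • y = 0) (hLy : L y ∈ iAug I (torsSub JM p)) :
    y ∈ iAug I (torsSub JN p) := by
  have hyT : y ∈ torsSub JN p := (mem_torsSub_iff_h43 p y).mpr hy
  obtain ⟨y', hy', hLy'⟩ := exists_preimage_of_mem_iAug_map135 I L hLg (torsSub JN p)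
    (hCE (L y) ⟨y, hyT, rfl⟩ hLy)
  have hy'T : y' ∈ torsSub JN p :=
    iAug_le_of_stable135 I (torsSub JN p) (fun σ _ w hw => smul_mem_torsSub135 p σ hw) hy'
  have h0 : y - y' = 0 := by
    refine hinj (y - y') ?_ ?_
    · rw [smul_sub, hy, (mem_torsSub_iff_h43 p y').mp hy'T, sub_zero]
    · rw [map_sub, hLy', sub_self]
  rw [sub_eq_zero.mp h0]
  exact hy'

/-- **CORE at level `N` from the geometry at level `M`.** -/
theorem core_of_pull135 (I : Subgroup G) (p : ℕ) (KM : AddSubgroup JM)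
    (hKI : ∀ τ ∈ I, ∀ y : JM, τ • y - y ∈ KM)
    (hmax : KM ⊓ torsSub JM p ≤ iAug I (torsSub JM p))
    (L : JN →+ JM) (hLg : ∀ (τ : G) (x : JN), L (τ • x) = τ • L x)
    (hdiv : ∀ (n : ℕ) (z : JN), p ^ n • z = 0 → ∃ y : JN, p ^ (n + 1) • y = 0 ∧ p • y = z)
    (hback : ∀ y : JN, p • y = 0 → L y ∈ iAug I (torsSub JM p) → y ∈ iAug I (torsSub JN p))
    (φ : G) (tN : JN →+ JN) (tM : JM →+ JM) (hLh : ∀ x : JN, L (tN x) = tM (L x))
    (hes : ∀ y : JM, φ • φ • y - tM (φ • y) + p • y ∈ KM)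
    (n : ℕ) (x : JN) (hx : p ^ n • x = 0) :
    φ • φ • x - tN (φ • x) + p • x ∈ iAug I (torsSub JN (p ^ n)) := by
  have haug : ∀ σ ∈ I, ∀ y : JN, σ • y - y ∈ KM.comap L := by
    intro σ hσ y
    rw [AddSubgroup.mem_comap, map_sub, hLg]
    exact hKI σ hσ (L y)
  have h1 : KM.comap L ⊓ torsSub JN p ≤ iAug I (torsSub JN p) := by
    rintro y ⟨hyK, hyT⟩
    have hy : p • y = 0 := (mem_torsSub_iff_h43 p y).mp hyT
    have hLT : L y ∈ torsSub JM p := by
      rw [mem_torsSub_iff_h43, ← map_nsmul, hy, map_zero]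
    exact hback y hy (hmax ⟨hyK, hLT⟩)
  have hes' : ∀ y : JN, (DistribSMul.toAddMonoidHom JN φ)
      ((DistribSMul.toAddMonoidHom JN φ) y) -
        tN ((DistribSMul.toAddMonoidHom JN φ) y) + p • y ∈ KM.comap L := by
    intro y
    rw [AddSubgroup.mem_comap]
    show L (φ • φ • y - tN (φ • y) + p • y) ∈ KM
    rw [map_add, map_sub, map_nsmul, hLg, hLg, hLh, hLg]
    exact hes (L y)
  exact core_of_frob_s33_h43 I (KM.comap L) p haug hdiv h1
    (DistribSMul.toAddMonoidHom JN φ) tN hes' n x ((mem_torsSub_iff_h43 _ x).mpr hx)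

end Fermat.Agent.S59.NMP.H135
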