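import Fermat.Agent.S59.NMP.H135.LgcSpec
import Fermat.Agent.S59.NMP.H135.CoreAbs
import Fermat.Agent.S17.GDiv.Final
import Fermat.Agent.S37.H28.DatumM
import Fermat.Agent.S37.H697.Final2
import Fermat.Agent.S37.H818.NodePull
import Fermat.Agent.A3.H319.Level
import Fermat.Agent.S33.H706.OldSpec

/-!
# S59 / NMP-LGC (helper135): leaf CORE from leaf MAXUNR

**`lgcCore_of_maxUnr : MaxUnrGoodStatement → LgcCoreStatement`.**

* good levels (`p ≥ 5`, or `p = 3` and `2 ∣ N`): `core_good135`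
  - `K := ker (reductionModL A N)`, inertia acts trivially modulo `K`
    (`S37.H697.reductionModL_inertia`), Eichler–Shimura at `ℓ = p` modulo `K`
    (`S37.H697.reductionModL_relation`: no torsion prime in it), MAXUNR, dévissage
    (`H43.core_of_frob_s33_h43` through `core_of_pull135` with `L = id`), divisibility
    (`S17.GDiv.divisible`);
* `p = 3`, `N` odd: `core_three135`, through the level `2 N`
  - `L := π^* : J₀(N) → J₀(2N)` (`S37.H818.TransferInputs.pullback`): Galois- and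
    `T_3`-equivariant, injective on `3`-torsion (`A3.H319.eq_zero_of_levelPull_eq_zero`),
    relative CE at level `2N` (`S33.H706.mem_augSub_of_mem_augTors`, frozen S19).
-/

set_option autoImplicit false
set_option linter.style.haveILetI false
set_option linter.unusedSectionVars false
set_option synthInstance.maxHeartbeats 400000
set_option maxHeartbeats 1600000

noncomputable section

open AlgebraicCurve ModularCurve

namespace Fermat.Agent.S59.NMP.H135

open Fermat.Agent.S33 Fermat.Agent.S59.NMP.H43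

/-- `p`-divisibility of the `p`-power torsion of `J₀(M)`. -/
theorem exists_torsion_lift135 (p M : ℕ) [NeZero M] (hp : p ≠ 0) (n : ℕ) (z : JZero M)
    (hz : p ^ n • z = 0) : ∃ y : JZero M, p ^ (n + 1) • y = 0 ∧ p • y = z := by
  obtain ⟨y, hy⟩ := Fermat.Agent.S17.GDiv.divisible M p hp z
  refine ⟨y, ?_, hy⟩
  rw [pow_succ, mul_smul, hy, hz]

/-- **The geometry at a good level**: inertia is trivial modulo the kernel of reduction, MAXUNR,
and Eichler–Shimura at `p` modulo the kernel of reduction. -/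
theorem good_geometry135 (hM : MaxUnrGoodStatement) (p M : ℕ) [NeZero M] (hp : p.Prime)
    (hp2 : p ≠ 2) (hpM : ¬ p ∣ M) (hg : 5 ≤ p ∨ (p = 3 ∧ 2 ∣ M))
    (A : ValuationSubring (AlgebraicClosure ℚ)) (hA : A.LiesOverPrime p)
    (σ : GQ135) (hσ : A.IsFrobeniusAt σ p) :
    (∀ τ ∈ A.inertiaSubgroupIn ℚ, ∀ y : JZero M, τ • y - y ∈ (reductionModL A M).ker) ∧
    ((reductionModL A M).ker ⊓ torsSub (JZero M) p ≤
      iAug (A.inertiaSubgroupIn ℚ) (torsSub (JZero M) p)) ∧
    (∀ y : JZero M, σ • σ • y - (heckeOperatorBar M ⟨p, hp⟩).toAddMonoidHom (σ • y) + p • y ∈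
      (reductionModL A M).ker) := by
  haveI : NeZero p := ⟨hp.ne_zero⟩
  have hg' : Fermat.Agent.S37.Core.GoodLevel M p := by
    rcases hg with h | h
    · exact Or.inl h
    · exact Or.inr (Or.inl h)
  have h : ReductionInputsModL A M := Fermat.Agent.S37.H28.rimStatement M p hp hpM hg' A hA
  have hR := Fermat.Agent.S37.H697.riemannBound_modular M
  refine ⟨?_, ?_, ?_⟩
  · intro τ hτ y
    rw [AddMonoidHom.mem_ker, map_sub,
      Fermat.Agent.S37.H697.reductionModL_inertia M A h hR τ hτ y, sub_self]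
  · rintro y ⟨hyK, hy⟩
    exact hM p M hp hp2 hpM hg A hA y ((mem_torsSub_iff_h43 p y).mp hy)
      (AddMonoidHom.mem_ker.mp hyK)
  · intro y
    rw [AddMonoidHom.mem_ker]
    exact Fermat.Agent.S37.H697.reductionModL_relation M A p h hR
      (fun P => Fermat.Agent.Lib.FF398.deg_eq_one_FF M P)
      (Fermat.Agent.Lib.FF398.heckeInputsAlong M p)
      (Fermat.Agent.S37.H697.kroneckerNorm_residue M hp hpM A hA) σ hσ y

/-- **CORE at good levels.** -/
theorem core_good135 (hM : MaxUnrGoodStatement) (p M : ℕ) [NeZero M] (hp : p.Prime)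
    (hp2 : p ≠ 2) (hpM : ¬ p ∣ M) (hg : 5 ≤ p ∨ (p = 3 ∧ 2 ∣ M))
    (A : ValuationSubring (AlgebraicClosure ℚ)) (hA : A.LiesOverPrime p)
    (σ : GQ135) (hσ : A.IsFrobeniusAt σ p) (n : ℕ) (x : JZero M) (hx : p ^ n • x = 0) :
    σ • σ • x - heckeOperatorBar M ⟨p, hp⟩ (σ • x) + p • x ∈
      iAug (A.inertiaSubgroupIn ℚ) (torsSub (JZero M) (p ^ n)) := by
  obtain ⟨hKI, hmax, hes⟩ := good_geometry135 hM p M hp hp2 hpM hg A hA σ hσ
  exact core_of_pull135 (A.inertiaSubgroupIn ℚ) p (reductionModL A M).ker hKI hmax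
    (AddMonoidHom.id (JZero M)) (fun _ _ => rfl) (exists_torsion_lift135 p M hp.ne_zero)
    (fun _ _ hy => hy) σ (heckeOperatorBar M ⟨p, hp⟩).toAddMonoidHom
    (heckeOperatorBar M ⟨p, hp⟩).toAddMonoidHom (fun _ => rfl) hes n x hx

/-- The two pull-backs `J₀(N) → J₀(2N)` on main agree. -/
theorem levelPull_eq_pullback135 (N : ℕ) [NeZero N]
    (T : Fermat.Agent.S37.H818.TransferInputs N 2 3) (y : JZero N) :
    Fermat.Agent.A3.H319.levelPull N 2 y = T.pullback y := by
  obtain ⟨D, rfl⟩ := Pic0.mk_surjective y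
  rfl

/-- **CORE for `p = 3` at odd levels**, through the level `2 N`. -/
theorem core_three135 (hM : MaxUnrGoodStatement) (N : ℕ) [NeZero N] (hp : Nat.Prime 3)
    (h3N : ¬ 3 ∣ N) (h2N : ¬ 2 ∣ N)
    (A : ValuationSubring (AlgebraicClosure ℚ)) (hA : A.LiesOverPrime 3)
    (σ : GQ135) (hσ : A.IsFrobeniusAt σ 3) (n : ℕ) (x : JZero N) (hx : 3 ^ n • x = 0) :
    σ • σ • x - heckeOperatorBar N ⟨3, hp⟩ (σ • x) + 3 • x ∈
      iAug (A.inertiaSubgroupIn ℚ) (torsSub (JZero N) (3 ^ n)) := by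
  haveI : Fact (Nat.Prime 3) := ⟨hp⟩
  haveI : NeZero (N * 2) := ⟨Nat.mul_ne_zero (NeZero.ne N) two_ne_zero⟩
  have h3M : ¬ 3 ∣ N * 2 := by
    intro h
    rcases (Nat.Prime.dvd_mul hp).mp h with h | h
    · exact h3N h
    · exact absurd h (by decide)
  have T : Fermat.Agent.S37.H818.TransferInputs N 2 3 :=
    Fermat.Agent.S37.H818.transferInputs N 2 3 hp Nat.prime_two h3N (by decide)
      (Fermat.Agent.S37.H818.finrankAlong_pow N 2 3 (Or.inl ⟨rfl, rfl⟩) h2N)
  obtain ⟨hKI, hmax, hes⟩ := good_geometry135 hM 3 (N * 2) hp (by decide) h3M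
    (Or.inr ⟨rfl, Dvd.intro_left N rfl⟩) A hA σ hσ
  have hLg : ∀ (τ : GQ135) (y : JZero N), T.pullback (τ • y) = τ • T.pullback y :=
    fun τ y => T.pullback_galois τ y
  -- injectivity on `3`-torsion
  have hinj : ∀ y : JZero N, 3 • y = 0 → T.pullback y = 0 → y = 0 := by
    intro y hy h0
    refine Fermat.Agent.A3.H319.eq_zero_of_levelPull_eq_zero N 2 Nat.prime_two 3 (by decide)
      ?_ ?_
    · rw [natCast_zsmul]
      exact hy
    · rw [levelPull_eq_pullback135 N T y]
      exact h0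
  -- relative CE at level `2N`
  have hCE : ∀ z ∈ (torsSub (JZero N) 3).map T.pullback,
      z ∈ iAug (A.inertiaSubgroupIn ℚ) (torsSub (JZero (N * 2)) 3) →
      z ∈ iAug (A.inertiaSubgroupIn ℚ) ((torsSub (JZero N) 3).map T.pullback) := by
    intro z hzY hz
    have hz' : z ∈ Fermat.Agent.S33.H706.augTors 3 (JZero (N * 2)) A 1 := by
      rw [← Fermat.Agent.S33.H706.iAug_torsSub_eq_augTors, pow_one]
      exact hz
    have hY : ∀ (τ : GQ135), ∀ y ∈ (torsSub (JZero N) 3).map T.pullback,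
        τ • y ∈ (torsSub (JZero N) 3).map T.pullback := by
      rintro τ _ ⟨w, hw, rfl⟩
      exact ⟨τ • w, smul_mem_torsSub135 3 τ hw, hLg τ w⟩
    have hpY : ∀ y ∈ (torsSub (JZero N) 3).map T.pullback, 3 • y = 0 := by
      rintro _ ⟨w, hw, rfl⟩
      rw [← map_nsmul, (mem_torsSub_iff_h43 3 w).mp hw, map_zero]
    have h := Fermat.Agent.S33.H706.mem_augSub_of_mem_augTors (p := 3)
      (J := JZero (N * 2)) (by decide) 1 (Fermat.Agent.S19.torsAct (N * 2) 3 1)
      (fun _ _ => rfl) (Fermat.Agent.S33.H706.s19HopfStatement (N * 2) 3 h3M 1) A hA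
      ((torsSub (JZero N) 3).map T.pullback) hY hpY hzY hz'
    rw [Fermat.Agent.S33.H706.iAug_eq_augSub]
    exact h
  have hback := back_of_relCE135 (A.inertiaSubgroupIn ℚ) 3 T.pullback hLg hinj hCE
  exact core_of_pull135 (A.inertiaSubgroupIn ℚ) 3 (reductionModL A (N * 2)).ker hKI hmax
    T.pullback hLg (exists_torsion_lift135 3 N (by decide)) hback σ
    (heckeOperatorBar N ⟨3, hp⟩).toAddMonoidHom
    (heckeOperatorBar (N * 2) ⟨3, hp⟩).toAddMonoidHom
    (fun y => T.pullback_hecke y) hes n x hx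

/-- **CORE from MAXUNR.** -/
theorem lgcCore_of_maxUnr (hM : MaxUnrGoodStatement) : LgcCoreStatement := by
  intro p N _ hp hp2 hpN A hA σ hσ n x hx
  by_cases h5 : 5 ≤ p
  · exact core_good135 hM p N hp hp2 hpN (Or.inl h5) A hA σ hσ n x hx
  · have h3 : p = 3 := by
      have hlt : p < 5 := not_le.mp h5
      have h2 := hp.two_le
      interval_cases p
      · exact absurd rfl hp2
      · rfl
      · exact absurd hp (by decide)
    subst h3
    by_cases h2N : 2 ∣ N
    · exact core_good135 hM 3 N hp hp2 hpN (Or.inr ⟨rfl, h2N⟩) A hA σ hσ n x hx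
    · exact core_three135 hM N hp hpN h2N A hA σ hσ n x hx

end Fermat.Agent.S59.NMP.H135

end
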