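import Fermat.Agent.S59.NMP.H296.MaxUnrGood
import Fermat.Agent.S59.NMP.H135.Core

/-!
# S59 / NMP-LGC (helper135): leaf CORE, unconditional

**`lgcCore : LgcCoreStatement`** — Eichler–Shimura at `p` modulo the inertia augmentation on
`J₀(N)[pⁿ]`, for every odd prime `p ∤ N`, every place `A ∣ p` and every Frobenius element at `A`:

    σ² x - T_p σ x + p x ∈ iAug I_A J₀(N)[pⁿ]      (x ∈ J₀(N)[pⁿ]).

= `lgcCore_of_maxUnr` (`Core.lean`) applied to `H296.maxUnrGood_h296` (helper296: the S19 pipeline
with the tracked reduction clause + theorem CE).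
-/

set_option autoImplicit false

namespace Fermat.Agent.S59.NMP.H135

/-- **CORE** (frozen `LgcCoreStatement`), unconditional. -/
theorem lgcCore : LgcCoreStatement :=
  lgcCore_of_maxUnr Fermat.Agent.S59.NMP.H296.maxUnrGood_h296

end Fermat.Agent.S59.NMP.H135
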