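import Fermat.Agent.S59.NMP.H135.LgcClean
import Fermat.Agent.S59.NMP.H135.CoreFinal
import Fermat.Agent.S33.H706.OldSpec

/-!
# S59 / cell NMP, leaf LGC — CLOSED (helper135, sub-architect of the leaf)

    Fermat.Agent.S59.NMP.H135.lgc : Fermat.Agent.S59.NMP.LgcStatement

Eichler–Shimura at `p` for the Betti eigenclasses (`NMP/SpecP.lean`), unconditional:

* CORE (`H135.lgcCore`, `NMP/H135/CoreFinal.lean`; MAXUNR by helper296);
* OLD (`S33.H706.oldAugStatement`);
* the assembly of helper587 (route CHAR: `betti_of_eigen`, `exists_eigenHom_of_eigenclass`) and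
  helper590 (`exists_eigenModule_geoRel`, `root_of_eigenModule`), in the realizer-free form
  `H135.Clean.lgc_of_old_core` (`NMP/H135/LgcClean.lean`).

The closure of this file contains none of the modules `S31/H22/PowTr`, `S31/H982/TracePow`,
`S31/H169/PowTr`, `A2/H493/FrobAlg`, so it can be imported together with the other cells of S59.
-/

set_option autoImplicit false

namespace Fermat.Agent.S59.NMP.H135

/-- **LGC**, unconditional. -/
theorem lgc : Fermat.Agent.S59.NMP.LgcStatement :=
  Clean.lgc_of_old_core Fermat.Agent.S33.H706.oldAugStatement lgcCore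

end Fermat.Agent.S59.NMP.H135
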