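import Fermat.Agent.S59.NMP.SpecP
import Fermat.Agent.S33.Spec2
import Fermat.Prelude.Def_ModularCurve_HeckeModule
import Fermat.Prelude.Def_ModularCurve_ReductionModL

/-!
# Row S59, cell NMP, leaf LGC (Eichler–Shimura at `p`) — FROZEN sub-interface (helper135)

Target: `NMP.LgcStatement` (`S59/NMP/SpecP.lean`, helper583):  `α • T_p x = (α² + p) • x` on the
`a`-eigenclasses `x` of level `N` (`p ∤ N`), `α` the unramified Frobenius eigenvalue of `ρ_π`.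

    LgcStatement   ⇐  LgcEigStatement + LgcBettiStatement              [`lgc_of_eig_betti`, proved]
    LgcEigStatement ⇐ LgcCoreStatement  (+ BLR for the datum `H`)     (leaf EIG, algebra)
    LgcCoreStatement ⇐ MaxUnrGoodStatement + ES at `ℓ = p` (main: `S37.H697.reductionModL_relation`)
                        + dévissage `p → pⁿ` (S17 divisibility) + level `2N` for `p = 3`
    MaxUnrGoodStatement                                              (leaf MAXUNR, geometry)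

* **MAXUNR** `MaxUnrGoodStatement`: at a good level `M`, a point of `J₀(M)[p]` killed by the
  reduction map at `A ∣ p` lies in the augmentation subgroup `iAug I_A J₀(M)[p]`.
* **CORE** `LgcCoreStatement`: for every Frobenius element `σ` at `A ∣ p` and `x ∈ J₀(N)[pⁿ]`,
  `σ² x - T_p σ x + p x ∈ iAug I_A J₀(N)[pⁿ]`.
* `IsEigenHom N Sig a f`: `f : Frac 𝒪 →+ J₀(N)` kills `𝒪` and `T_ℓ (f x) = f (a_ℓ x)` for the
  primes `ℓ ∤ N`, `ℓ ∉ Sig` (the points of the Tate eigenmodule of row S30, `S30/H529`: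
  `seqOfHom p f n = (o ↦ f (o / pⁿ))`).
* `ScalarAtP N Sig a p α`: `T_p (f (α x)) = f ((α² + p) x)` for every eigen-hom `f`.
* **EIG** `LgcEigStatement`: in the situation of `NMP.LgcStatement`, `ScalarAtP` holds.
  [CORE on the Tate eigenmodule `W`; BLR algebra map `Ψ : End V_ρ → End W`; `P` = projection of
  `V_ρ` onto `V_ρ/L` along `L`: `Ψ(P)` kills `augSpan_I W ⊆ Ψ({n | im n ⊆ L}) W`,
  `P ρ(σ) = α P`, `T_p` commutes with `Ψ`, `End V · P · End V = End V`.]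
* **BETTI** `LgcBettiStatement`: `ScalarAtP` implies the Betti statement.
  [`f_ϑ (z) = κ (γ ↦ ϑ (x γ · z))`, `ϑ` a character of `Frac 𝒪 / 𝒪`, `κ` the Kummer map
  (`S15.H111.chi`, Hecke-equivariant at ALL `ℓ ∤ N`); `κ` injective and the `ϑ` separate.]
-/

set_option autoImplicit false

open Polynomial IsLocalRing CongruenceSubgroup
open scoped MatrixGroups

noncomputable section

namespace Fermat.Agent.S59.NMP.H135

open CuspForm ModularCurve Fermat.Agent.S59.Arch Fermat.Agent.S59.H765 Fermat.Agent.S41.Spec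
  Fermat.Agent.S29.H642

/-- `Gal(ℚ̄/ℚ)`. -/
abbrev GQ135 : Type := AlgebraicClosure ℚ ≃ₐ[ℚ] AlgebraicClosure ℚ

/-! ## Geometry -/

/-- **MAXUNR** at good levels (`p ≥ 5`, or `p = 3` and `2 ∣ M`): the kernel of reduction on
`J₀(M)[p]` is contained in the inertia augmentation. -/
def MaxUnrGoodStatement : Prop :=
  ∀ (p M : ℕ) [NeZero M], p.Prime → p ≠ 2 → ¬ p ∣ M → (5 ≤ p ∨ (p = 3 ∧ 2 ∣ M)) →
    ∀ A : ValuationSubring (AlgebraicClosure ℚ), A.LiesOverPrime p →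
      ∀ x : JZero M, p • x = 0 → reductionModL A M x = 0 →
        x ∈ Fermat.Agent.S33.iAug (A.inertiaSubgroupIn ℚ)
          (Fermat.Agent.S33.torsSub (JZero M) p)

/-- **CORE**: Eichler–Shimura at `p` modulo the inertia augmentation, on `J₀(N)[pⁿ]`. -/
def LgcCoreStatement : Prop :=
  ∀ (p N : ℕ) [NeZero N] (hp : p.Prime), p ≠ 2 → ¬ p ∣ N →
    ∀ A : ValuationSubring (AlgebraicClosure ℚ), A.LiesOverPrime p →
      ∀ σ : GQ135, A.IsFrobeniusAt σ p →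
        ∀ (n : ℕ) (x : JZero N), p ^ n • x = 0 →
          σ • σ • x - heckeOperatorBar N ⟨p, hp⟩ (σ • x) + p • x ∈
            Fermat.Agent.S33.iAug (A.inertiaSubgroupIn ℚ)
              (Fermat.Agent.S33.torsSub (JZero N) (p ^ n))

/-! ## Eigen-homs -/

/-- `f : Frac 𝒪 →+ J₀(N)` kills `𝒪` and is an eigenvector of the `T_ℓ`, `ℓ ∤ N`, `ℓ ∉ Sig`,
with eigenvalues `a ℓ` (for the `𝒪`-structure `(b • f) x = f (b x)`). -/
def IsEigenHom (N : ℕ) [NeZero N] (Sig : Finset ℕ) {𝒪 : Type} [CommRing 𝒪] (a : ℕ → 𝒪)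
    (f : FractionRing 𝒪 →+ JZero N) : Prop :=
  (∀ r : 𝒪, f (algebraMap 𝒪 (FractionRing 𝒪) r) = 0) ∧
    ∀ ℓ : Nat.Primes, ¬ (ℓ : ℕ) ∣ N → (ℓ : ℕ) ∉ Sig → ∀ x : FractionRing 𝒪,
      heckeOperatorBar N ℓ (f x) = f (algebraMap 𝒪 (FractionRing 𝒪) (a ℓ) * x)

/-- `T_p` acts on the eigen-homs by the scalar `(α² + p)/α`. -/
def ScalarAtP (N : ℕ) [NeZero N] (Sig : Finset ℕ) {𝒪 : Type} [CommRing 𝒪] (a : ℕ → 𝒪)
    (p : ℕ) [Fact p.Prime] (α : 𝒪) : Prop :=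
  ∀ f : FractionRing 𝒪 →+ JZero N, IsEigenHom N Sig a f → ∀ x : FractionRing 𝒪,
    heckeOperatorBar N ⟨p, Fact.out⟩ (f (algebraMap 𝒪 (FractionRing 𝒪) α * x)) =
      f (algebraMap 𝒪 (FractionRing 𝒪) (α ^ 2 + (p : 𝒪)) * x)

/-! ## The two leaves above CORE -/

/-- **EIG**: in the situation of `NMP.LgcStatement` (binders verbatim), `T_p` acts on the
eigen-homs of level `N` by `(α² + p)/α`. -/
def LgcEigStatement : Prop :=
  ∀ (p : ℕ) [Fact p.Prime]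
    (𝒪 : Type) [CommRing 𝒪] [IsDomain 𝒪] [IsDiscreteValuationRing 𝒪]
    [IsAdicComplete (maximalIdeal 𝒪) 𝒪] [Finite (ResidueField 𝒪)] [CharZero 𝒪]
    (ρbar : ResidualGaloisRep (ResidueField 𝒪)) (Smin : Finset ℕ)
    (_h : ResidualHyp p 𝒪 ρbar Smin) (_hc : CurveCase p ρbar)
    (Sig : Finset ℕ)
    (_hSig : Smin ⊆ Sig) (_hSigP : ∀ q ∈ Sig, q.Prime) (_hpSig : p ∈ Sig)
    (_hflat : (GaloisRepAdic.ofResidualGaloisRep ρbar).IsFlatAt p)
    (_hord : (GaloisRepAdic.ofResidualGaloisRep ρbar).IsOrdinaryAt p)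
    [NeZero (wilesLevel p .flat Smin Sig)]
    [Fact (HasIntegralStructure (wilesLevel p .flat Smin Sig) 2)]
    (θ : heckeAlgebra (wilesLevel p .flat Smin Sig) 2 (↑Sig : Set ℕ) →+* ResidueField 𝒪)
    [IsLocalRing (heckeLocal (wilesLevel p .flat Smin Sig) (↑Sig : Set ℕ) 𝒪 θ)]
    [IsNoetherianRing (heckeLocal (wilesLevel p .flat Smin Sig) (↑Sig : Set ℕ) 𝒪 θ)]
    [IsAdicComplete (maximalIdeal (heckeLocal (wilesLevel p .flat Smin Sig) (↑Sig : Set ℕ) 𝒪 θ))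
      (heckeLocal (wilesLevel p .flat Smin Sig) (↑Sig : Set ℕ) 𝒪 θ)]
    [IsLocalHom (algebraMap 𝒪 (heckeLocal (wilesLevel p .flat Smin Sig) (↑Sig : Set ℕ) 𝒪 θ))]
    [Module.Finite 𝒪 (heckeLocal (wilesLevel p .flat Smin Sig) (↑Sig : Set ℕ) 𝒪 θ)]
    [Module.Free 𝒪 (heckeLocal (wilesLevel p .flat Smin Sig) (↑Sig : Set ℕ) 𝒪 θ)]
    (H : HeckeGaloisRepDatum (wilesLevel p .flat Smin Sig) (↑Sig : Set ℕ) 𝒪 θ
      (heckeLocal (wilesLevel p .flat Smin Sig) (↑Sig : Set ℕ) 𝒪 θ))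
    (_hπ : H.π = heckeLocal.π (wilesLevel p .flat Smin Sig) (↑Sig : Set ℕ) 𝒪 θ)
    (_hres : H.ρ.residual.IsEquiv (ρbar.baseChangeAlong (ResidueField.map (algebraMap 𝒪
      (heckeLocal (wilesLevel p .flat Smin Sig) (↑Sig : Set ℕ) 𝒪 θ)))))
    (_hcond : sigmaCond 𝒪 p .flat Smin Sig H.ρ)
    (π : heckeLocal (wilesLevel p .flat Smin Sig) (↑Sig : Set ℕ) 𝒪 θ →ₐ[𝒪] 𝒪)
    (hπloc : IsLocalHom
      (π : heckeLocal (wilesLevel p .flat Smin Sig) (↑Sig : Set ℕ) 𝒪 θ →+* 𝒪))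
    (a : ℕ → 𝒪)
    (_hπa : ∀ (l : ℕ) (hl : l.Prime) (hlN : ¬ l ∣ wilesLevel p .flat Smin Sig)
      (hlS : l ∉ (↑Sig : Set ℕ)),
      π (heckeLocal.π (wilesLevel p .flat Smin Sig) (↑Sig : Set ℕ) 𝒪 θ
        (heckeAlgebra.T hl hlN hlS)) = a l)
    (α : 𝒪)
    (_hα : UnrFrobAt (H.ρ.baseChangeAlong
      (π : heckeLocal (wilesLevel p .flat Smin Sig) (↑Sig : Set ℕ) 𝒪 θ →+* 𝒪) hπloc) p α)
    (_hpN : ¬ p ∣ wilesLevel p .flat Smin Sig),
    ScalarAtP (wilesLevel p .flat Smin Sig) Sig a p α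

/-- **BETTI**: the scalar on the eigen-homs is the scalar on the Betti eigenclasses. -/
def LgcBettiStatement : Prop :=
  ∀ (p : ℕ) [Fact p.Prime]
    (𝒪 : Type) [CommRing 𝒪] [IsDomain 𝒪] [IsDiscreteValuationRing 𝒪]
    [IsAdicComplete (maximalIdeal 𝒪) 𝒪] [Finite (ResidueField 𝒪)] [CharZero 𝒪]
    (_hp𝒪 : (p : 𝒪) ∈ maximalIdeal 𝒪)
    (N : ℕ) [NeZero N] (hpN : ¬ p ∣ N) (Sig : Finset ℕ) (a : ℕ → 𝒪) (α : 𝒪),
    ScalarAtP N Sig a p α →
      ∀ x : Additive (Gamma0 N) →+ 𝒪, NM.IsEigenclass N Sig a x →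
        α • heckeTransfer hpN x = (α ^ 2 + (p : 𝒪)) • x

/-! ## Glue -/

/-- **LGC from EIG and BETTI.** -/
theorem lgc_of_eig_betti (hE : LgcEigStatement) (hB : LgcBettiStatement) : LgcStatement := by
  intro p _ 𝒪 _ _ _ _ _ _ ρbar Smin h hc Sig hSig hSigP hpSig hflat hord _ _ θ _ _ _ _ _ _
    H hπ hres hcond π hπloc a hπa α hα hpN x hx
  exact hB p 𝒪 h.hp𝒪 (wilesLevel p .flat Smin Sig) hpN Sig a α
    (hE p 𝒪 ρbar Smin h hc Sig hSig hSigP hpSig hflat hord θ H hπ hres hcond π hπloc a hπa α hα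
      hpN) x hx

end Fermat.Agent.S59.NMP.H135

end
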